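import Mathlib
import Fermat.Agent.Lib.JInjective
import Fermat.Agent.GR.A.ModFun
import Fermat.Agent.S28.An.LevelOne

/-!
# S15-MOD-A : definitions

Analytic side: `Lt τ = ℤτ + ℤ`, `Pn τ z = ℘(z; L_τ)/(2πi)²`, the Fricke function
`frz τ z = (E₄E₆/Δ)(τ) Pn τ z` (weight `0`), the Fricke polynomial
`frPoly p τ = ∏_{0<a<p} (X - frz τ (a/p))`.

Formal side, over any field `K`: the series `Gser c A B ∈ K[[T]]`, which is the expansion of
`Pn τ' z` for `e(z) = c T^A`, `e(τ') = T^B` (`0 ≤ A < B`), and the formal versions `frS`, `frPolyS`,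
`muS`, `nuS`, `mu0S`, `nu0S`.
-/

set_option autoImplicit false

open UpperHalfPlane ModularForm EisensteinSeries
open scoped Real PeriodPair ArithmeticFunction.sigma

namespace Fermat.Agent.S15.Mod.A

open Fermat.Agent.Lib.JInjective (pp)
open Fermat.Agent.S28 (deltaInvL deltaL IsExp tParam DeltaF)

noncomputable section

/-! ## analytic side -/

/-- the period pair `(τ, 1)`. -/
abbrev Lt (τ : ℍ) : PeriodPair := pp 1 one_ne_zero τ

/-- `e(z) = exp(2πiz)`. -/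
def ee (z : ℂ) : ℂ := Complex.exp (2 * π * Complex.I * z)

/-- `F(t) = t/(1-t)²` (note `F(1/t) = F(t)`). -/
def Ff {K : Type*} [Field K] (t : K) : K := t / (1 - t) ^ 2

/-- the normalised Weierstrass function `℘(z; ℤτ+ℤ)/(2πi)²`. -/
def Pn (τ : ℍ) (z : ℂ) : ℂ := ℘[Lt τ] z / (2 * π * Complex.I) ^ 2

/-- the Fricke function `(E₄E₆/Δ)(τ) ℘(z;L_τ)/(2πi)²`. -/
def frz (τ : ℍ) (z : ℂ) : ℂ := E₄ τ * E₆ τ * (DeltaF τ)⁻¹ * Pn τ z

/-- the Fricke polynomial of the subgroup `⟨1/p⟩` of `ℂ/L_τ`. -/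
def frPoly (p : ℕ) (τ : ℍ) : Polynomial ℂ :=
  ∏ a ∈ Finset.Ioo 0 p, (Polynomial.X - Polynomial.C (frz τ ((a : ℂ) / p)))

/-- `(j - 1728)(τ) = E₆²/Δ`. -/
def j1 (τ : ℍ) : ℂ := E₆ τ ^ 2 * (DeltaF τ)⁻¹

/-- `H(τ) = ∏_{0<a<p} ((j-1728)/12 - fr_a) = (j-1728)^(p-1) ∏_a μ_a`,
`μ_a = 1/12 - (E₄/E₆) Pn τ (a/p)`. -/
def Hnu (p : ℕ) (τ : ℍ) : ℂ := ∏ a ∈ Finset.Ioo 0 p, (j1 τ / 12 - frz τ ((a : ℂ) / p))

/-! ## formal side -/

section Formal

variable (K : Type) [Field K]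

/-- The expansion of `Pn τ' z` in `T`, when `e(z) = c T^A` and `e(τ') = T^B`, `0 ≤ A < B`:
`1/12 + F(w) + ∑_{n ≥ 1} (F(w qⁿ) + F(qⁿ/w)) - 2 ∑ σ₁(n) qⁿ` with `w = c T^A`, `q = T^B`. -/
def Gser (c : K) (A B : ℕ) : PowerSeries K := PowerSeries.mk fun k =>
  if k = 0 then 1 / 12 + (if A = 0 then Ff c else 0)
  else ∑ d ∈ k.divisors, (d : K) *
    ((if ((k / d : ℕ) : ZMod B) = (A : ZMod B) then c ^ d else 0)
      + (if ((k / d : ℕ) : ZMod B) = -(A : ZMod B) then c⁻¹ ^ d else 0)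
      - (if ((k / d : ℕ) : ZMod B) = 0 then 2 else 0))

/-- `E₆ = 1 - 504 ∑ σ₅(n) qⁿ` over `ℤ`. -/
def e6Z : PowerSeries ℤ := PowerSeries.mk fun n => if n = 0 then 1 else -504 * (σ 5 n : ℤ)

/-- `E₄` over `K`. -/
def e4S : PowerSeries K := ModularCurve.eisenstein4.map (Int.castRingHom K)

/-- `E₆` over `K`. -/
def e6S : PowerSeries K := e6Z.map (Int.castRingHom K)

/-- `E₄E₆/Δ` over `K`. -/
def kapS : LaurentSeries K := HahnSeries.ofPowerSeries ℤ K (e4S K * e6S K) * deltaInvL K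

/-- `j - 1728 = E₆²/Δ` over `K`. -/
def j1S : LaurentSeries K := HahnSeries.ofPowerSeries ℤ K (e6S K ^ 2) * deltaInvL K

/-- the `q`-expansion of `τ ↦ frz τ x`, `c = e(x)`, `x` real. -/
def frS (c : K) : LaurentSeries K := kapS K * HahnSeries.ofPowerSeries ℤ K (Gser K c 0 1)

/-- the formal Fricke polynomial. -/
def frPolyS (p : ℕ) : Polynomial (LaurentSeries K) :=
  ∏ c ∈ primitiveRoots p K, (Polynomial.X - Polynomial.C (frS K c))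

/-- `μ_c = 1/12 - (E₄/E₆) P_c`. -/
def muS (c : K) : PowerSeries K := PowerSeries.C (1 / 12 : K) - e4S K * (e6S K)⁻¹ * Gser K c 0 1

/-- `ν = ∏_c μ_c`. -/
def nuS (p : ℕ) : PowerSeries K := ∏ c ∈ primitiveRoots p K, muS K c

/-- `μ_a ∘ w_p = 1/12 - (E₄/E₆)(q^p) P(w = q^a, q^p)`. -/
def mu0S (p : ℕ) [NeZero p] (a : ℕ) : LaurentSeries K :=
  HahnSeries.C (1 / 12 : K) -
    ModularCurve.qExpand K p (HahnSeries.ofPowerSeries ℤ K (e4S K * (e6S K)⁻¹)) *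
      HahnSeries.ofPowerSeries ℤ K (Gser K 1 a p)

/-- `ν ∘ w_p`. -/
def nu0S (p : ℕ) [NeZero p] : LaurentSeries K := ∏ a ∈ Finset.Ioo 0 p, mu0S K p a

end Formal

end

end Fermat.Agent.S15.Mod.A
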